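/-
T1B / brick H (helper13): INTERFACE of "holomorphic q-dlog on X₀(N)_κ  ⇒  eigenform of level N".

Contract with F8' (report 917, helper3; slices S4 DELTA / S5 HOL) and with GLOBAL44 (helper68, `LIFTC`):

* `HolLog κ N p w` : `w ∈ κ((q))` is `dlog u = θ(u)/u` for a NONZERO function `u` of the special fibre
  `k = modularFunctionFieldFullC κ N ⊆ κ((q))` (Prelude; `= κ(j(q^d), d ∣ N)`, the function field of
  `X₀(N)_κ`, also `= ` the residue field `k₁` of the Gauss valuation of `FF (N p)` since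
  `j(q^p) = j(q)^p` over `𝔽_p`) whose divisor is divisible by `p` at EVERY place of `k / κ`.
  This is what S5 HOL has to deliver for `w = δ₁(P)`, `P ∈ J⁰[p]`.
* `redSet κ N` : the `q`-expansions `∑ (c n : κ) q^n` of the weight 2 cusp forms of level `Γ₀(N)` with
  INTEGRAL `q`-expansion `(c n)`; `redSpan κ N` its `κ`-span.
* `QEXP` (the `q`-expansion principle, geometric core): `HolLog … w → w ∈ redSpan κ N`
  (`κ` = residue field of a valuation ring of `ℚbar` over `p ∤ N`, `4 ∣ N`).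
* `LIFTQ` (Deligne–Serre lifting on the lattice `intLattice N 2`): a nonzero `w ∈ redSpan κ N` with
  `T_ℓ w = a_ℓ w` (good `ℓ`; `T_ℓ = Hecke7.heckeT2 ℓ = U_ℓ + ℓ V_ℓ`) and `c(U_2) w = 0` (`c ∈ C`)
  gives `Top68.EigenOcc N p good a C`.
* `eigenOcc_of_holLog` : `QEXP → LIFTQ →` the statement consumed by `LIFTC`.
-/
import Mathlib
import Fermat.Prelude.Def_CuspForm_IntegralStructure
import Fermat.Prelude.Def_ModularCurve_X0ModL
import Fermat.Prelude.Def_AlgebraicCurve_DivisorClassGroup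
import Fermat.Prelude.Def_FLTPrelim_Ramification
import Fermat.Agent.T1B.Top68.Global
import Fermat.Agent.T1B.Hecke7.DlogAlg

set_option autoImplicit false

noncomputable section

namespace Fermat.Agent.T1B.Hol13

open HahnSeries ModularCurve AlgebraicCurve CuspForm ModularFormClass CongruenceSubgroup
open Fermat.Agent.T1B.Top68 Fermat.Agent.T1B.Hecke7

/-! ### Integral `q`-expansions and their reductions -/

/-- `g` has the integral `q`-expansion `∑ c n q^n`. -/
def IsZCoeff {N : ℕ} (g : CuspForm (Gamma0 N) 2) (c : ℕ → ℤ) : Prop :=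
  ∀ n : ℕ, qCoeff g n = (c n : ℂ)

/-- The Laurent series `∑ (c n : R) q^n`. -/
def serOf (R : Type*) [CommRing R] (c : ℕ → ℤ) : LaurentSeries R :=
  HahnSeries.ofPowerSeries ℤ R (PowerSeries.mk fun n => ((c n : ℤ) : R))

theorem serOf_coeff_natCast (R : Type*) [CommRing R] (c : ℕ → ℤ) (n : ℕ) :
    (serOf R c).coeff (n : ℤ) = ((c n : ℤ) : R) := by
  rw [serOf, HahnSeries.ofPowerSeries_apply_coeff, PowerSeries.coeff_mk]

/-- The `q`-expansions, with coefficients in `R`, of the cusp forms with integral `q`-expansion. -/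
def redSet (R : Type*) [CommRing R] (N : ℕ) : Set (LaurentSeries R) :=
  {s | ∃ (g : CuspForm (Gamma0 N) 2) (c : ℕ → ℤ), IsZCoeff g c ∧ s = serOf R c}

/-- The span of `redSet`: "weight 2 cusp forms of level `N` over `R`". -/
def redSpan (R : Type*) [CommRing R] (N : ℕ) : Submodule R (LaurentSeries R) :=
  Submodule.span R (redSet R N)

/-! ### The input: logarithmic differentials with `p`-divisible divisor -/

/-- `w = dlog u` for a nonzero function `u` on `X₀(N)_κ` whose divisor is divisible by `p`. -/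
def HolLog (κ : Type*) [Field κ] (N p : ℕ) (w : LaurentSeries κ) : Prop :=
  ∃ u : ↥(modularFunctionFieldFullC κ N), u ≠ 0 ∧
    w = dlog ((u : ↥(modularFunctionFieldFullC κ N)) : LaurentSeries κ) ∧
    ∀ v : Place κ ↥(modularFunctionFieldFullC κ N), (p : ℤ) ∣ v.ord u

/-- The operator `U_2` on `q`-expansions as a `ℤ`-linear endomorphism. -/
def U2End (R : Type*) [CommRing R] : Module.End ℤ (LaurentSeries R) :=
  (Uop (R := R) 2).toIntLinearMap

/-! ### The two Props -/

/-- **QEXP**: the `q`-expansion principle for logarithmic differentials on the good model. -/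
def QEXP : Prop :=
  ∀ (N p : ℕ) [NeZero N], p.Prime → 4 ∣ N → ¬ p ∣ N →
    ∀ A : ValuationSubring (AlgebraicClosure ℚ), A.LiesOverPrime p →
      ∀ w : LaurentSeries (IsLocalRing.ResidueField ↥A),
        HolLog (IsLocalRing.ResidueField ↥A) N p w →
          w ∈ redSpan (IsLocalRing.ResidueField ↥A) N

/-- **LIFTQ**: Deligne–Serre lifting from `κ ⊗ intLattice` to a normalised eigenform. -/
def LIFTQ : Prop :=
  ∀ (N p : ℕ) [NeZero N], p.Prime → 2 ∣ N →
    ∀ (κ : Type) [Field κ] [CharP κ p] (good : ℕ → Prop) (a : ℕ → ℤ) (C : Set (Polynomial ℤ)),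
      (∀ ℓ, good ℓ → ℓ.Prime ∧ ¬ ℓ ∣ N ∧ ℓ ≠ p) →
      ∀ w : LaurentSeries κ, w ≠ 0 → w ∈ redSpan κ N →
        (∀ (ℓ : ℕ) [NeZero ℓ], good ℓ → heckeT2 ℓ w = ((a ℓ : ℤ) : κ) • w) →
        (∀ c ∈ C, Polynomial.aeval (U2End κ) c w = 0) →
        EigenOcc N p good a C

/-- **Brick H from the two Props**: the statement consumed by `LIFTC`. -/
theorem eigenOcc_of_holLog (hQ : QEXP) (hL : LIFTQ)
    (N p : ℕ) [NeZero N] (hp : p.Prime) (h4 : 4 ∣ N) (hpN : ¬ p ∣ N)
    (A : ValuationSubring (AlgebraicClosure ℚ)) (hA : A.LiesOverPrime p)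
    [CharP (IsLocalRing.ResidueField ↥A) p]
    (good : ℕ → Prop) (a : ℕ → ℤ) (C : Set (Polynomial ℤ))
    (hgood : ∀ ℓ, good ℓ → ℓ.Prime ∧ ¬ ℓ ∣ N ∧ ℓ ≠ p)
    (w : LaurentSeries (IsLocalRing.ResidueField ↥A)) (hw0 : w ≠ 0)
    (hol : HolLog (IsLocalRing.ResidueField ↥A) N p w)
    (hT : ∀ (ℓ : ℕ) [NeZero ℓ], good ℓ →
      heckeT2 ℓ w = ((a ℓ : ℤ) : IsLocalRing.ResidueField ↥A) • w)
    (hU : ∀ c ∈ C, Polynomial.aeval (U2End (IsLocalRing.ResidueField ↥A)) c w = 0) :
    EigenOcc N p good a C :=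
  hL N p hp (Dvd.dvd.trans ⟨2, by norm_num⟩ h4) (IsLocalRing.ResidueField ↥A) good a C hgood w hw0
    (hQ N p hp h4 hpN A hA w hol) hT hU

end Fermat.Agent.T1B.Hol13
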