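/-
T1B / brick H (helper13): PLAN of the proof of `Hol13.QEXP` ("Option M": characteristic zero
function field theory + reduction of places + linear algebra; NO characteristic `p` Riemann–Roch).

Notation: `N` with `4 ∣ N`, `p ∤ N`, `A ⊂ ℚbar` a valuation ring over `p`, `κ = A/𝔪`,
`F = FF N ⊂ ℚbar((q))`, `F~ = modularFunctionFieldFullC κ N ⊂ κ((q))`, `∞ = inftyPlace N`.

* `pair x y = (x * y).coeff 0` : the residue pairing on Laurent series;
* `RegOff N f` : `f ∈ F` is regular at every place `≠ ∞`;
* `testSet N A` : the reductions `redA f ∈ κ((q))` of the `f ∈ F` with `A`-integral `q`-expansion and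
  `RegOff N f`;
* `Ysub N A = κ[[q]] + span (testSet N A)`.

The four slices (each an independent brick):

* `PA N`   (char 0)  : `⟨G, f⟩ = 0` for `G` the `q`-expansion of a cusp form, `RegOff N f`
                       (residue theorem for `f ω_G`; `= FORM N + RES1 N`, theorem `pa_of`);
* `PB N A p`         : `⟨dlog u, y⟩ = 0` for `HolLog` data `u` and `y ∈ testSet N A`
                       (residue theorem in char 0 for `f dũ/ũ`, `= RES2 N` + reduction of places);
* `PC N A`           : any `g + 1` Laurent series over `κ` are dependent modulo `Ysub N A`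
                       (`g = dim S₂(Γ₀(N))`; Riemann's inequality in char 0 `PC0 N` + saturation);
* `PD N κ`           : there are `g` linearly independent elements in `redSet κ N`.

`Hol13/Lin.lean` proves `QEXP` from these (`qexp_of_props`).
-/
import Mathlib
import Fermat.Agent.T1B.Hol13.Iface
import Fermat.Agent.ES.RED.Setup8
import Fermat.Agent.ES.RED.PlaceValue13
import Fermat.Agent.MW.NCA61.InfPlace
import Fermat.Agent.S20.Low

set_option autoImplicit false

noncomputable section

namespace Fermat.Agent.T1B.Hol13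

open HahnSeries ModularCurve AlgebraicCurve CuspForm ModularFormClass CongruenceSubgroup
open Fermat.Agent.X0 Fermat.Agent.ES.RED.Setup8 Fermat.Agent.MW.NCA61.InfPlace
open Fermat.Agent.T1B.Hecke7

/-- The residue pairing on Laurent series: `⟨x, y⟩ = coeff₀ (x y)`. -/
def pair {R : Type*} [CommRing R] (x y : LaurentSeries R) : R := (x * y).coeff 0

/-- Power series inside Laurent series, as a submodule. -/
def psSub (R : Type*) [CommRing R] : Submodule R (LaurentSeries R) where
  carrier := {x | ∀ n : ℤ, n < 0 → x.coeff n = 0}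
  add_mem' := by
    intro x y hx hy n hn
    rw [HahnSeries.coeff_add, hx n hn, hy n hn, add_zero]
  zero_mem' := fun n _ => HahnSeries.coeff_zero
  smul_mem' := by
    intro c x hx n hn
    rw [HahnSeries.coeff_smul, hx n hn, smul_zero]

theorem mem_psSub_iff {R : Type*} [CommRing R] (x : LaurentSeries R) :
    x ∈ psSub R ↔ ∀ n : ℤ, n < 0 → x.coeff n = 0 := Iff.rfl

section Level

variable (N : ℕ) [NeZero N]

/-- `f ∈ FF N` is regular at every place different from `∞`. -/
def RegOff (f : FF N) : Prop :=
  ∀ v : Place Kbar (FF N), v ≠ inftyPlace N → f ∈ v.toValuationSubring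

variable (A : ValuationSubring Kbar)

/-- The reductions of the `A`-integral functions regular away from `∞`. -/
def testSet : Set (LaurentSeries (kA A)) :=
  {y | ∃ f : ↥(gaussA A (modularFunctionFieldBar N)), RegOff N (f : FF N) ∧
    y = redA A (modularFunctionFieldBar N) f}

/-- `κ[[q]] + span (testSet N A)`. -/
def Ysub : Submodule (kA A) (LaurentSeries (kA A)) :=
  psSub (kA A) ⊔ Submodule.span (kA A) (testSet N A)

/-- `g = dim S₂(Γ₀(N))`. -/
def gDim : ℕ := Module.finrank ℂ (CuspForm (Gamma0 N) 2)

/-! ### The four slices -/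

/-- **(P-A)** (characteristic zero): the `q`-expansion of a cusp form with integral coefficients is
orthogonal to the functions regular away from `∞`. -/
def PA : Prop :=
  ∀ (g : CuspForm (Gamma0 N) 2) (c : ℕ → ℤ), IsZCoeff g c →
    ∀ f : FF N, RegOff N f → pair (serOf Kbar c) (f : LaurentSeries Kbar) = 0

/-- **(P-B)**: logarithmic differentials with `p`-divisible divisor on the special fibre are
orthogonal to the test set. -/
def PB (p : ℕ) : Prop :=
  ∀ w : LaurentSeries (kA A), HolLog (kA A) N p w → ∀ y ∈ testSet N A, pair w y = 0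

/-- **(P-B0)**: such a logarithmic differential lies in `q κ[[q]]`. -/
def PB0 (p : ℕ) : Prop :=
  ∀ w : LaurentSeries (kA A), HolLog (kA A) N p w → ∀ n : ℤ, n ≤ 0 → w.coeff n = 0

/-- **(P-C)**: any `g + 1` Laurent series over `κ` are linearly dependent modulo `Ysub N A`. -/
def PC : Prop :=
  ∀ x : Fin (gDim N + 1) → LaurentSeries (kA A),
    ∃ c : Fin (gDim N + 1) → kA A, c ≠ 0 ∧ ∑ i, c i • x i ∈ Ysub N A

/-- **(P-D)**: `g` linearly independent reductions of cusp forms with integral `q`-expansion. -/
def PD (κ : Type*) [Field κ] : Prop :=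
  ∃ s : Fin (gDim N) → LaurentSeries κ, LinearIndependent κ s ∧ ∀ i, s i ∈ redSet κ N

/-! ### Sub-slices in characteristic zero -/

/-- **H-FORM**: every cusp form of weight two comes from a regular differential `h dj`
(converse of `S20.Low.exists_cuspForm_of_regular`, by the dimension count). -/
def FORM : Prop :=
  ∀ g : CuspForm (Gamma0 N) 2, ∃ h : FF N,
    (∀ v : Place Kbar (FF N),
      0 ≤ v.ordDifferential (h • KaehlerDifferential.D Kbar (FF N) (jF N))) ∧
    ∀ n : ℕ, qCoeff g n =
      iotaK (((h : LaurentSeries Kbar) * Fermat.Agent.S20.LowDJ.thetaJ).coeff n)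

/-- **H-RES1**: the residue theorem for `f · (h dj)`, `h dj` regular, `f` regular away from `∞`,
read on `q`-expansions (`res_∞ (x dj) = coeff₀ (x θ(j))`). -/
def RES1 : Prop :=
  ∀ h f : FF N,
    (∀ v : Place Kbar (FF N),
      0 ≤ v.ordDifferential (h • KaehlerDifferential.D Kbar (FF N) (jF N))) →
    RegOff N f →
    pair ((h : LaurentSeries Kbar) * Fermat.Agent.S20.LowDJ.thetaJ) (f : LaurentSeries Kbar) = 0

/-- **H-RES2**: the residue theorem for `f du/u`, `f` regular away from `∞`:
`coeff₀ (f θ(u)/u) = - ∑_{z ≠ ∞} ord_z(u) f(z)`. -/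
def RES2 : Prop :=
  ∀ (u f : FF N) (_hu : u ≠ 0) (hf : RegOff N f),
    pair (dlog (u : LaurentSeries Kbar)) (f : LaurentSeries Kbar) =
      - ∑ᶠ z : {z : Place Kbar (FF N) // z ≠ inftyPlace N},
          (z.1.ord u) • Fermat.Agent.ES.RED.PlaceValue13.valueHom
            (Fermat.Agent.X0.HasCanDivInst.isGen N) z.1 ⟨f, hf z.1 z.2⟩

/-- **H-GAP** (Riemann's inequality at `∞`, characteristic zero): any `g + 1` Laurent series over
`ℚbar` have a nontrivial combination whose polar part is the polar part of a function regular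
away from `∞`. -/
def PC0 : Prop :=
  ∀ x : Fin (gDim N + 1) → LaurentSeries Kbar,
    ∃ c : Fin (gDim N + 1) → Kbar, c ≠ 0 ∧ ∃ f : FF N, RegOff N f ∧
      ∀ n : ℤ, n < 0 → (∑ i, c i • x i - (f : LaurentSeries Kbar)).coeff n = 0

end Level

end Fermat.Agent.T1B.Hol13
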