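/-
T1B / brick H (helper13): (P-B0) — a logarithmic differential `dlog u`, `u ∈ F~ = κ(X₀(N))`,
with `p ∣ ord_v u` at every place lies in `q κ[[q]]` (`char κ = p`).

The place `∞~` of `F~ ⊂ κ((q))` is the `q`-expansion place `inftyPlaceC κ N`
(`LaurentPlace.embPlace` of the inclusion); `ord_∞~ = order` because `j~ = jqModC κ` has order `-1`.
-/
import Mathlib
import Fermat.Agent.T1B.Hol13.Plan
import Fermat.Agent.X0.LaurentPlace
import Fermat.Agent.IG.AN.ModPoly3

set_option autoImplicit false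

noncomputable section

namespace Fermat.Agent.T1B.Hol13

open HahnSeries ModularCurve AlgebraicCurve
open Fermat.Agent.X0 Fermat.Agent.ES.RED.Setup8 Fermat.Agent.T1B.Hecke7
open Fermat.Agent.IG.PR.Theta20

section InftyC

variable (κ : Type*) [Field κ] (N : ℕ) [NeZero N]

/-- The inclusion `F~ → κ((q))` as a ring homomorphism. -/
def inclC : ↥(modularFunctionFieldFullC κ N) →+* LaurentSeries κ :=
  (modularFunctionFieldFullC κ N).val.toRingHom

@[simp] theorem inclC_apply (f : ↥(modularFunctionFieldFullC κ N)) :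
    inclC κ N f = (f : LaurentSeries κ) := rfl

theorem inclC_algebraMap (c : κ) :
    inclC κ N (algebraMap κ ↥(modularFunctionFieldFullC κ N) c) = HahnSeries.C c := by
  show algebraMap κ (LaurentSeries κ) c = HahnSeries.C c
  have h1 : algebraMap κ (PowerSeries κ) c = PowerSeries.C c := by simp
  rw [HahnSeries.algebraMap_apply', h1, HahnSeries.ofPowerSeries_C]

/-- `j~` as an element of `F~`. -/
def jC : ↥(modularFunctionFieldFullC κ N) := ⟨jqModC κ, jqModC_mem_full κ N⟩

theorem jC_ne_zero : jC κ N ≠ 0 := by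
  intro h
  have h1 : (jqModC κ).order = -1 := Fermat.Agent.IG.AN.ModPoly3.order_jqModC κ
  have h2 : jqModC κ = 0 := congrArg Subtype.val h
  rw [h2, HahnSeries.order_zero] at h1
  exact absurd h1 (by decide)

theorem exists_order_ne_zeroC :
    ∃ f : ↥(modularFunctionFieldFullC κ N), f ≠ 0 ∧ (inclC κ N f).order ≠ 0 :=
  ⟨jC κ N, jC_ne_zero κ N, by
    show (jqModC κ).order ≠ 0
    rw [Fermat.Agent.IG.AN.ModPoly3.order_jqModC κ]; decide⟩

/-- **The place `∞~`** of `F~ = κ(X₀(N))`: the `q`-expansion place. -/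
def inftyPlaceC : Place κ ↥(modularFunctionFieldFullC κ N) :=
  Fermat.Agent.X0.LaurentPlace.embPlace (inclC κ N) (inclC_algebraMap κ N)
    (exists_order_ne_zeroC κ N)

theorem mem_inftyPlaceC_iff {f : ↥(modularFunctionFieldFullC κ N)} (hf : f ≠ 0) :
    f ∈ (inftyPlaceC κ N).toValuationSubring ↔ 0 ≤ (f : LaurentSeries κ).order :=
  Fermat.Agent.X0.LaurentPlace.mem_embPlace_iff (inclC κ N) (inclC_algebraMap κ N)
    (exists_order_ne_zeroC κ N) hf

/-- `ord_∞~ f` is the order of the Laurent series `f`. -/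
theorem inftyPlaceC_ord {f : ↥(modularFunctionFieldFullC κ N)} (hf : f ≠ 0) :
    (inftyPlaceC κ N).ord f = (f : LaurentSeries κ).order := by
  obtain ⟨m, hm, hspec⟩ := Fermat.Agent.X0.LaurentPlace.embPlace_spec (inclC κ N)
    (inclC_algebraMap κ N) (exists_order_ne_zeroC κ N)
  have h1 := hspec (jC κ N) (jC_ne_zero κ N)
  have hj : (inclC κ N (jC κ N)).order = -1 := Fermat.Agent.IG.AN.ModPoly3.order_jqModC κ
  rw [hj] at h1
  have hdvd : (m : ℤ) ∣ 1 := ⟨-(inftyPlaceC κ N).ord (jC κ N), by
    show (1 : ℤ) = m * -(Fermat.Agent.X0.LaurentPlace.embPlace (inclC κ N) (inclC_algebraMap κ N)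
      (exists_order_ne_zeroC κ N)).ord (jC κ N)
    linarith⟩
  have hm1 : (m : ℤ) = 1 := Int.eq_one_of_dvd_one (by positivity) hdvd
  have h2 := hspec f hf
  rw [hm1, one_mul] at h2
  exact h2.symm

end InftyC

/-! ### `dlog` of a series whose order is divisible by the characteristic -/

section Dlog

variable {κ : Type*} [Field κ]

/-- If `p ∣ order u` and `char κ = p` then `dlog u ∈ q κ[[q]]`. -/
theorem dlog_coeff_nonpos (p : ℕ) [CharP κ p] {u : LaurentSeries κ} (hu : u ≠ 0)
    (hp : (p : ℤ) ∣ u.order) {n : ℤ} (hn : n ≤ 0) : (dlog u).coeff n = 0 := by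
  -- coefficients of `θ u` vanish up to `order u`
  have hθ : ∀ m : ℤ, m ≤ u.order → (theta u).coeff m = 0 := by
    intro m hm
    rw [theta_coeff]
    rcases lt_or_eq_of_le hm with h | rfl
    · rw [HahnSeries.coeff_eq_zero_of_lt_order h, mul_zero]
    · obtain ⟨c, hc⟩ := hp
      have : ((u.order : ℤ) : κ) = 0 := by
        rw [hc, Int.cast_mul, Int.cast_natCast, CharP.cast_eq_zero, zero_mul]
      rw [this, zero_mul]
  by_cases h0 : theta u = 0
  · rw [dlog_def, h0, zero_mul, HahnSeries.coeff_zero]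
  · have hw : dlog u * u = theta u := by
      rw [dlog_def, mul_assoc, inv_mul_cancel₀ hu, mul_one]
    have hw0 : dlog u ≠ 0 := by
      intro h
      rw [h, zero_mul] at hw
      exact h0 hw.symm
    have hord : (dlog u).order + u.order = (theta u).order := by
      rw [← HahnSeries.order_mul hw0 hu, hw]
    have hlt : u.order < (theta u).order := by
      by_contra hle
      rw [not_lt] at hle
      exact (HahnSeries.coeff_order_eq_zero.not.2 h0) (hθ _ hle)
    apply HahnSeries.coeff_eq_zero_of_lt_order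
    omega

end Dlog

/-- **(P-B0)**. -/
theorem pb0 (N p : ℕ) [NeZero N] (A : ValuationSubring Kbar) [CharP (kA A) p] : PB0 N A p := by
  rintro w ⟨u, hu, rfl, hdiv⟩ n hn
  have hu' : ((u : ↥(modularFunctionFieldFullC (kA A) N)) : LaurentSeries (kA A)) ≠ 0 :=
    fun h => hu (Subtype.ext h)
  have h1 := hdiv (inftyPlaceC (kA A) N)
  rw [inftyPlaceC_ord (kA A) N hu] at h1
  exact dlog_coeff_nonpos p hu' h1 hn

end Fermat.Agent.T1B.Hol13
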