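/-
T1B / brick H (helper13): H-LIN — the linear algebra assembling `QEXP` from the slices of
`Hol13/Plan.lean` and helper64's dimension count (`T1B/Dim64/RedSpan`).

`Ann N A := { w | ∀ y ∈ Ysub N A, ⟨w, y⟩ = 0 }`.  Then
* `redSpan κ N ≤ Ann`          from `PA N` (reduce the characteristic zero orthogonality mod `𝔪_A`);
* `finrank Ann ≤ g`            from `PC N A` (`Ann` embeds into the dual of `κ((q)) / Ysub`);
* hence `redSpan κ N = Ann`    (`Dim64.redSpan_eq_of_le_of_finrank_le`);
* `w ∈ Ann` for `HolLog` data  from `PB`, `PB0`.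
-/
import Mathlib
import Fermat.Agent.T1B.Hol13.Plan
import Fermat.Agent.T1B.Dim64.RedSpan

set_option autoImplicit false

noncomputable section

namespace Fermat.Agent.T1B.Hol13

open HahnSeries ModularCurve AlgebraicCurve CuspForm ModularFormClass CongruenceSubgroup
open Fermat.Agent.X0 Fermat.Agent.ES.RED.Setup8 Fermat.Agent.MW.NCA61.InfPlace
open Fermat.Agent.T1B.Hecke7

/-! ### The pairing -/

section Pair

variable {R : Type*} [CommRing R]

theorem pair_def (x y : LaurentSeries R) : pair x y = (x * y).coeff 0 := rfl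

theorem pair_add_right (x y z : LaurentSeries R) : pair x (y + z) = pair x y + pair x z := by
  rw [pair_def, mul_add, HahnSeries.coeff_add]; rfl

theorem pair_add_left (x y z : LaurentSeries R) : pair (x + y) z = pair x z + pair y z := by
  rw [pair_def, add_mul, HahnSeries.coeff_add]; rfl

theorem pair_smul_right (c : R) (x y : LaurentSeries R) : pair x (c • y) = c * pair x y := by
  rw [pair_def, ← HahnSeries.C_mul_eq_smul, mul_left_comm, HahnSeries.C_mul_eq_smul,
    HahnSeries.coeff_smul]; rfl

theorem pair_smul_left (c : R) (x y : LaurentSeries R) : pair (c • x) y = c * pair x y := by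
  rw [pair_def, ← HahnSeries.C_mul_eq_smul, mul_assoc, HahnSeries.C_mul_eq_smul,
    HahnSeries.coeff_smul]; rfl

theorem pair_zero_right (x : LaurentSeries R) : pair x 0 = 0 := by
  rw [pair_def, mul_zero, HahnSeries.coeff_zero]

theorem pair_zero_left (y : LaurentSeries R) : pair (0 : LaurentSeries R) y = 0 := by
  rw [pair_def, zero_mul, HahnSeries.coeff_zero]

/-- The pairing as a bilinear map. -/
def pairLin (R : Type*) [CommRing R] : LaurentSeries R →ₗ[R] LaurentSeries R →ₗ[R] R :=
  LinearMap.mk₂ R pair pair_add_left (fun c x y => by rw [pair_smul_left, smul_eq_mul])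
    pair_add_right (fun c x y => by rw [pair_smul_right, smul_eq_mul])

@[simp] theorem pairLin_apply (x y : LaurentSeries R) : pairLin R x y = pair x y := rfl

/-- `q R[[q]] ⊥ R[[q]]`. -/
theorem pair_eq_zero_of_coeff {x y : LaurentSeries R} (hx : ∀ n : ℤ, n ≤ 0 → x.coeff n = 0)
    (hy : ∀ n : ℤ, n < 0 → y.coeff n = 0) : pair x y = 0 := by
  rw [pair_def, HahnSeries.coeff_mul]
  apply Finset.sum_eq_zero
  intro ij hij
  rw [Finset.mem_addAntidiagonal] at hij
  obtain ⟨-, -, hsum⟩ := hij
  by_cases h1 : ij.1 ≤ 0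
  · rw [hx _ h1, zero_mul]
  · rw [hy ij.2 (by omega), mul_zero]

/-- Pairing with a monomial reads off a coefficient. -/
theorem pair_single (x : LaurentSeries R) (n : ℤ) :
    pair x (HahnSeries.single (-n) (1 : R)) = x.coeff n := by
  rw [pair_def]
  have := HahnSeries.coeff_mul_single_add (x := x) (a := n) (b := -n) (r := (1 : R))
  rw [add_neg_cancel, mul_one] at this
  exact this

theorem eq_zero_of_pair_eq_zero {x : LaurentSeries R} (h : ∀ y, pair x y = 0) : x = 0 := by
  ext n
  rw [← pair_single x n, h, HahnSeries.coeff_zero]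

/-- `coeffMap` commutes with the pairing. -/
theorem pair_coeffMap {S : Type*} [CommRing S] (φ : R →+* S) (x y : LaurentSeries R) :
    pair (coeffMap φ x) (coeffMap φ y) = φ (pair x y) := by
  rw [pair_def, ← map_mul, coeffMap_coeff, pair_def]

end Pair

/-! ### `serOf` -/

section SerOf

variable (R : Type*) [CommRing R]

theorem serOf_coeff (c : ℕ → ℤ) (n : ℤ) :
    (serOf R c).coeff n = if n < 0 then 0 else ((c n.natAbs : ℤ) : R) := by
  rw [serOf]
  erw [PowerSeries.coeff_coe]
  split_ifs
  · rfl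
  · rw [PowerSeries.coeff_mk]

theorem serOf_coeff_of_neg (c : ℕ → ℤ) {n : ℤ} (hn : n < 0) : (serOf R c).coeff n = 0 := by
  rw [serOf_coeff, if_pos hn]

theorem coeffMap_serOf {S : Type*} [CommRing S] (φ : R →+* S) (c : ℕ → ℤ) :
    coeffMap φ (serOf R c) = serOf S c := by
  ext n
  rw [coeffMap_coeff, serOf_coeff, serOf_coeff]
  split_ifs
  · exact map_zero φ
  · exact map_intCast φ _

/-- The `q`-expansion of a cusp form has no constant term. -/
theorem serOf_coeff_nonpos {N : ℕ} [NeZero N] {g : CuspForm (Gamma0 N) 2} {c : ℕ → ℤ}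
    (hc : IsZCoeff g c) {n : ℤ} (hn : n ≤ 0) : (serOf R c).coeff n = 0 := by
  rcases lt_or_eq_of_le hn with h | rfl
  · exact serOf_coeff_of_neg R c h
  · have h0 : c 0 = 0 := by
      have h1 := hc 0
      rw [Fermat.Agent.S49.qCoeff_zero_index] at h1
      exact_mod_cast h1.symm
    rw [serOf_coeff, if_neg (lt_irrefl 0)]
    show ((c 0 : ℤ) : R) = 0
    rw [h0, Int.cast_zero]

end SerOf

/-! ### The annihilator of `Ysub` -/

section Ann

variable (N : ℕ) [NeZero N] (A : ValuationSubring Kbar)

/-- The annihilator of `Ysub N A` for the residue pairing. -/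
def Ann : Submodule (kA A) (LaurentSeries (kA A)) where
  carrier := {w | ∀ y ∈ Ysub N A, pair w y = 0}
  add_mem' := by
    intro w w' hw hw' y hy
    rw [pair_add_left, hw y hy, hw' y hy, add_zero]
  zero_mem' := fun y _ => pair_zero_left y
  smul_mem' := by
    intro c w hw y hy
    rw [pair_smul_left, hw y hy, mul_zero]

theorem mem_Ann_iff (w : LaurentSeries (kA A)) :
    w ∈ Ann N A ↔ ∀ y ∈ Ysub N A, pair w y = 0 := Iff.rfl

/-- Membership in `Ann` can be tested on `κ[[q]]` and on the test set. -/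
theorem mem_Ann_of {w : LaurentSeries (kA A)} (h0 : ∀ n : ℤ, n ≤ 0 → w.coeff n = 0)
    (h1 : ∀ y ∈ testSet N A, pair w y = 0) : w ∈ Ann N A := by
  intro y hy
  rw [Ysub, Submodule.mem_sup] at hy
  obtain ⟨y1, hy1, y2, hy2, rfl⟩ := hy
  rw [pair_add_right, pair_eq_zero_of_coeff h0 ((mem_psSub_iff y1).1 hy1), zero_add]
  refine Submodule.span_induction (p := fun y _ => pair w y = 0) ?_ ?_ ?_ ?_ hy2
  · intro y hy
    exact h1 y hy
  · exact pair_zero_right w
  · intro y z _ _ hy hz
    rw [pair_add_right, hy, hz, add_zero]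
  · intro c y _ hy
    rw [pair_smul_right, hy, mul_zero]

/-- **`redSpan κ N ≤ Ann`** from (P-A). -/
theorem redSpan_le_Ann (hPA : PA N) : redSpan (kA A) N ≤ Ann N A := by
  rw [redSpan, Submodule.span_le]
  rintro s ⟨g, c, hc, rfl⟩
  refine mem_Ann_of N A (fun n hn => serOf_coeff_nonpos (kA A) hc hn) ?_
  rintro y ⟨f, hf, rfl⟩
  have h1 : pair (serOf Kbar c) (((f : ↥(gaussA A (modularFunctionFieldBar N))) : FF N) :
      LaurentSeries Kbar) = 0 := hPA g c hc _ hf
  rw [← coeffMap_liftA A (modularFunctionFieldBar N) f, ← coeffMap_serOf (↥A) A.subtype c,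
    pair_coeffMap] at h1
  have h2 : pair (serOf (↥A) c) (liftA A (modularFunctionFieldBar N) f) = 0 :=
    Subtype.ext h1
  show pair (serOf (kA A) c) (coeffMap (resA A) (liftA A (modularFunctionFieldBar N) f)) = 0
  rw [← coeffMap_serOf (↥A) (resA A) c, pair_coeffMap, h2, map_zero]

/-- `HolLog` data lie in `Ann`, from (P-B) and (P-B0). -/
theorem mem_Ann_of_holLog {p : ℕ} (hPB : PB N A p) (hPB0 : PB0 N A p)
    {w : LaurentSeries (kA A)} (hol : HolLog (kA A) N p w) : w ∈ Ann N A :=
  mem_Ann_of N A (hPB0 w hol) (hPB w hol)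

/-- The quotient `κ((q)) / Ysub` has dimension at most `g`, from (P-C). -/
theorem rank_quotient_le (hPC : PC N A) :
    Module.rank (kA A) (LaurentSeries (kA A) ⧸ Ysub N A) ≤ (gDim N : Cardinal) := by
  classical
  apply rank_le
  intro s hs
  by_contra hlt
  rw [not_le] at hlt
  -- an injection `Fin (g+1) → s`
  have hcard : gDim N + 1 ≤ Fintype.card ↥s := by rw [Fintype.card_coe]; omega
  obtain ⟨e⟩ : Nonempty (Fin (gDim N + 1) ↪ ↥s) :=
    Function.Embedding.nonempty_of_card_le (by rw [Fintype.card_fin]; exact hcard)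
  -- lift to Laurent series
  have hsurj := Submodule.Quotient.mk_surjective (Ysub N A)
  choose x hx using fun i : Fin (gDim N + 1) => hsurj ((e i : ↥s) : LaurentSeries (kA A) ⧸ Ysub N A)
  obtain ⟨c, hc0, hc⟩ := hPC x
  have hli : LinearIndependent (kA A)
      (fun i : Fin (gDim N + 1) => ((e i : ↥s) : LaurentSeries (kA A) ⧸ Ysub N A)) :=
    hs.comp e e.injective
  have hsum : ∑ i, c i • ((e i : ↥s) : LaurentSeries (kA A) ⧸ Ysub N A) = 0 := by
    have h1 : Submodule.Quotient.mk (p := Ysub N A) (∑ i, c i • x i) = 0 :=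
      (Submodule.Quotient.mk_eq_zero _).2 hc
    rw [← h1, ← Submodule.mkQ_apply, map_sum]
    refine Finset.sum_congr rfl fun i _ => ?_
    rw [map_smul, Submodule.mkQ_apply, hx i]
  have := Fintype.linearIndependent_iff.1 hli c hsum
  exact hc0 (funext this)

/-- `Ann` embeds into the dual of `κ((q)) / Ysub`. -/
def annToDual : ↥(Ann N A) →ₗ[kA A] Module.Dual (kA A) (LaurentSeries (kA A) ⧸ Ysub N A) where
  toFun w := (Ysub N A).liftQ (pairLin (kA A) (w : LaurentSeries (kA A))) (by
    intro y hy
    rw [LinearMap.mem_ker, pairLin_apply]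
    exact w.2 y hy)
  map_add' w w' := by
    apply Submodule.linearMap_qext
    ext y
    simp [pair_add_left]
  map_smul' c w := by
    apply Submodule.linearMap_qext
    ext y
    simp [pair_smul_left]

theorem annToDual_injective : Function.Injective (annToDual N A) := by
  rw [← LinearMap.ker_eq_bot, LinearMap.ker_eq_bot']
  intro w hw
  apply Subtype.ext
  apply eq_zero_of_pair_eq_zero
  intro y
  have := congrArg (fun φ : Module.Dual (kA A) (LaurentSeries (kA A) ⧸ Ysub N A) =>
    φ (Submodule.Quotient.mk y)) hw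
  simpa [annToDual] using this

/-- **`dim Ann ≤ g`**, from (P-C). -/
theorem finrank_Ann_le (hPC : PC N A) :
    Module.Finite (kA A) ↥(Ann N A) ∧ Module.finrank (kA A) ↥(Ann N A) ≤ gDim N := by
  have hr := rank_quotient_le N A hPC
  haveI hfin : Module.Finite (kA A) (LaurentSeries (kA A) ⧸ Ysub N A) :=
    Module.rank_lt_aleph0_iff.1 (lt_of_le_of_lt hr (Cardinal.nat_lt_aleph0 _))
  have hfr : Module.finrank (kA A) (LaurentSeries (kA A) ⧸ Ysub N A) ≤ gDim N := by
    have := Module.finrank_le_of_rank_le hr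
    exact this
  haveI : Module.Finite (kA A) (Module.Dual (kA A) (LaurentSeries (kA A) ⧸ Ysub N A)) :=
    inferInstance
  have hfinA : Module.Finite (kA A) ↥(Ann N A) :=
    Module.Finite.of_injective (annToDual N A) (annToDual_injective N A)
  refine ⟨hfinA, ?_⟩
  calc Module.finrank (kA A) ↥(Ann N A)
      ≤ Module.finrank (kA A) (Module.Dual (kA A) (LaurentSeries (kA A) ⧸ Ysub N A)) :=
        LinearMap.finrank_le_finrank_of_injective (annToDual_injective N A)
    _ = Module.finrank (kA A) (LaurentSeries (kA A) ⧸ Ysub N A) := Subspace.dual_finrank_eq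
    _ ≤ gDim N := hfr

end Ann

/-! ### The assembly -/

/-- **QEXP from the slices**: (P-A), (P-B), (P-B0), (P-C) and the integral structure give the
`q`-expansion principle for `HolLog` data. -/
theorem qexp_of_props (N p : ℕ) [NeZero N] [Fact p.Prime] (A : ValuationSubring Kbar)
    [CharP (kA A) p] (hint : CuspForm.HasIntegralStructure N 2)
    (hPA : PA N) (hPB : PB N A p) (hPB0 : PB0 N A p) (hPC : PC N A)
    (w : LaurentSeries (kA A)) (hol : HolLog (kA A) N p w) : w ∈ redSpan (kA A) N := by
  obtain ⟨hfin, hdim⟩ := finrank_Ann_le N A hPC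
  haveI := hfin
  have heq := Fermat.Agent.T1B.Dim64.redSpan_eq_of_le_of_finrank_le N p (kA A) hint (Ann N A)
    (redSpan_le_Ann N A hPA) hdim
  rw [heq]
  exact mem_Ann_of_holLog N A hPB hPB0 hol

end Fermat.Agent.T1B.Hol13
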