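/-
T1B / brick H (helper13): `QEXP` from the three geometric slices (P-A), (P-B), (P-C).

(P-B0) is `Hol13/PB0.lean`, (P-D) is helper64's `T1B/Dim64/RedSpan` (through S23), the linear algebra
is `Hol13/Lin.lean`.
-/
import Mathlib
import Fermat.Agent.T1B.Hol13.Lin
import Fermat.Agent.T1B.Hol13.PB0
import Fermat.Agent.S23
import Fermat.Agent.ES.KRON.KronInst10

set_option autoImplicit false

noncomputable section

namespace Fermat.Agent.T1B.Hol13

open HahnSeries ModularCurve AlgebraicCurve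
open Fermat.Agent.X0 Fermat.Agent.ES.RED.Setup8

/-- **`QEXP` from the slices.** -/
theorem qexp_of_slices
    (hPA : ∀ (N : ℕ) [NeZero N], PA N)
    (hPB : ∀ (N p : ℕ) [NeZero N], p.Prime → 4 ∣ N → ¬ p ∣ N →
      ∀ A : ValuationSubring Kbar, A.LiesOverPrime p → PB N A p)
    (hPC : ∀ (N p : ℕ) [NeZero N], p.Prime → 4 ∣ N → ¬ p ∣ N →
      ∀ A : ValuationSubring Kbar, A.LiesOverPrime p → PC N A) : QEXP := by
  intro N p _ hp h4 hpN A hA w hol
  haveI : Fact p.Prime := ⟨hp⟩
  haveI : CharP (kA A) p := Fermat.Agent.ES.KRON.KronInst10.charP_residueField A hp hA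
  exact qexp_of_props N p A (Fermat.Agent.S23.result N) (hPA N) (hPB N p hp h4 hpN A hA)
    (pb0 N p A) (hPC N p hp h4 hpN A hA) w hol

end Fermat.Agent.T1B.Hol13
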