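/-
T1B / brick H (helper13): **(G6) / (H5)** — functions regular away from `∞` are bounded:
`RegOff N f`, `f ≠ 0`  ⟹  `f = δ · Y` with `δ ∈ ℚbar^×` and `Y` an `A`-integral series of NONZERO
reduction (Gauss normalisation with denominator `1`), whenever a coefficientwise chart
`S` (`Contract8.ChartSpec` + `GaloisInst21.CoeffChart`) with coordinate `t = S.s` is given, `t` a
generator of `FF N / ℚbar` with a pole at `∞`.

* `mem_intRing_of_forall_mem` (generic, char 0): a function regular wherever `x` is regular is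
  integral over `K[x]` (Dedekind: integral at every height one prime of `intRing K x`);
* `mem_intRing_of_regOff` : `RegOff N f → f ∈ intRing ℚbar t` if `t` has a pole at `∞`;
* `exists_const_mul_mem_chart_of_regOff` : `∃ c ∈ A, c ≠ 0 ∧ c f ∈ chart A t`
  (`ES/RED/ChartFacts9.exists_const_mul_mem_chart`);
* `hnorm_of_chart` : the statement (H5) consumed by `T1B/HSemi32/Sat.lean`.
-/
import Mathlib
import Fermat.Agent.T1B.Hol13.Plan
import Fermat.Agent.ES.RED.ChartFacts9
import Fermat.Agent.ES.RED.GaloisInst21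
import Fermat.Agent.X0.FFDedekind

set_option autoImplicit false
set_option synthInstance.maxHeartbeats 400000
set_option linter.style.haveILetI false

noncomputable section

namespace Fermat.Agent.T1B.Hol13

open HahnSeries ModularCurve AlgebraicCurve IsDedekindDomain
open Fermat.Agent.X0 Fermat.Agent.X0.FF Fermat.Agent.X0.FFDedekind
open Fermat.Agent.ES.RED Fermat.Agent.MW.NCA61.InfPlace
open Fermat.Agent.ES.RED.Contract8 Fermat.Agent.ES.RED.GaloisInst21

section Generic

variable {K F : Type*} [Field K] [CharZero K] [Field F] [Algebra K F]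

/-- A function regular wherever `x` is regular is integral over `K[x]`. -/
theorem mem_intRing_of_forall_mem {x : F} (hx : IsGen K x) (f : F)
    (h : ∀ v : Place K F, x ∈ v.toValuationSubring → f ∈ v.toValuationSubring) :
    f ∈ intRing K x := by
  haveI := isDedekindDomain_intRing hx
  haveI := isFractionRing_intRing hx
  have hxB : x ∈ intRing K x := (intRing K x).algebraMap_mem (genA K x)
  have key := HeightOneSpectrum.mem_integers_of_valuation_le_one (R := intRing K x) F f
    (fun w => h (Place.ofHeightOneSpectrum (K := K) (F := F) w)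
      (algebraMap_mem_ofHeightOneSpectrum w (⟨x, hxB⟩ : intRing K x)))
  obtain ⟨b, rfl⟩ := key
  exact b.2

end Generic

section Bounded

variable (N : ℕ) [NeZero N]

/-- A function regular away from `∞` is integral over `ℚbar[t]` if `t` has a pole at `∞`. -/
theorem mem_intRing_of_regOff {t : FF N} (ht : IsGen Kbar t)
    (htinf : t ∉ (inftyPlace N).toValuationSubring) {f : FF N} (hf : RegOff N f) :
    f ∈ intRing Kbar t :=
  mem_intRing_of_forall_mem ht f fun v hv => hf v (fun h => htinf (h ▸ hv))

/-- Clearing denominators by a constant: `c f ∈ chart A t`. -/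
theorem exists_const_mul_mem_chart_of_regOff (A : ValuationSubring Kbar) {t : FF N}
    (ht : IsGen Kbar t) (htinf : t ∉ (inftyPlace N).toValuationSubring) {f : FF N}
    (hf : RegOff N f) :
    ∃ c : A, c ≠ 0 ∧ algebraMap Kbar (FF N) (c : Kbar) * f ∈
      Fermat.Agent.RED.PUR.ChartGeneric22.chart ↥A t :=
  Fermat.Agent.ES.RED.ChartFacts9.exists_const_mul_mem_chart A t
    (mem_intRing_of_regOff N ht htinf hf)

theorem coe_algebraMap_FF (c : Kbar) :
    ((algebraMap Kbar (FF N) c : FF N) : LaurentSeries Kbar) = HahnSeries.C c := by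
  show algebraMap Kbar (LaurentSeries Kbar) c = HahnSeries.C c
  have h1 : algebraMap Kbar (PowerSeries Kbar) c = PowerSeries.C c := by simp
  rw [HahnSeries.algebraMap_apply', h1, HahnSeries.ofPowerSeries_C]

/-- **(H5)**: Gauss normalisation with denominator `1` of the functions regular away from `∞`. -/
theorem hnorm_of_chart (A : ValuationSubring Kbar) {x : FF N} {hx : IsGen Kbar x}
    (S : ChartSpec A hx ↥(modularFunctionFieldFullC (Setup8.kA A) N))
    (cS : CoeffChart (F₀ := modularFunctionFieldFull N) S)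
    (ht : IsGen Kbar S.s) (htinf : S.s ∉ (inftyPlace N).toValuationSubring)
    (f : FF N) (hf : RegOff N f) (hf0 : f ≠ 0) :
    ∃ (δ : Kbar) (Y : LaurentSeries ↥A), δ ≠ 0 ∧
      (f : LaurentSeries Kbar) = δ • coeffMap A.subtype Y ∧ coeffMap (Setup8.resA A) Y ≠ 0 := by
  obtain ⟨c0, hc0, hmem⟩ := exists_const_mul_mem_chart_of_regOff N A ht htinf hf
  have hc0K : (c0 : Kbar) ≠ 0 := fun h => hc0 (Subtype.ext h)
  have hbB : algebraMap Kbar (FF N) (c0 : Kbar) * f ∈ S.B := (cS.mem_iff _).2 hmem
  set b : ↥S.B := ⟨algebraMap Kbar (FF N) (c0 : Kbar) * f, hbB⟩ with hb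
  have hb0 : b ≠ 0 := by
    intro h
    have h1 : algebraMap Kbar (FF N) (c0 : Kbar) * f = 0 := congrArg Subtype.val h
    rcases mul_eq_zero.1 h1 with h2 | h2
    · exact hc0K ((map_eq_zero (algebraMap Kbar (FF N))).1 h2)
    · exact hf0 h2
  obtain ⟨c', b', hbb', hred⟩ := S.sat b hb0
  obtain ⟨Y, hY⟩ := cS.exists_series b'
  have hredY := cS.red_eq b' Y hY
  have hc'K : (c' : Kbar) ≠ 0 := by
    intro h
    apply hb0
    apply Subtype.ext
    rw [hbb', h, map_zero, zero_mul]
    rfl
  refine ⟨(c' : Kbar) / (c0 : Kbar), Y, div_ne_zero hc'K hc0K, ?_, ?_⟩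
  · -- the identity in `ℚbar((q))`
    have h1 : (HahnSeries.C (c0 : Kbar) : LaurentSeries Kbar) * (f : LaurentSeries Kbar) =
        HahnSeries.C (c' : Kbar) * coeffMap A.subtype Y := by
      rw [hY, ← coe_algebraMap_FF N (c0 : Kbar), ← coe_algebraMap_FF N (c' : Kbar)]
      have := congrArg (fun z : FF N => (z : LaurentSeries Kbar)) hbb'
      exact this
    rw [HahnSeries.C_mul_eq_smul, HahnSeries.C_mul_eq_smul] at h1
    rw [div_eq_inv_mul, mul_smul, ← h1, smul_smul, inv_mul_cancel₀ hc0K, one_smul]
  · intro h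
    apply hred
    apply Subtype.ext
    rw [hredY, h]
    rfl

end Bounded

end Fermat.Agent.T1B.Hol13
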