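/-
T1B / brick H (helper13): **`QEXP`, unconditionally** — the final wiring of the route "Option M"
(report 993): the three slices

* (P-A) `HForm79.pa` (helper79, through helper49's residue slice `HRes49.res1`),
* (P-B) `HolGeom93.pb` (helper93/helper33, through `HRes2.res2` of helper2/helper49),
* (P-C) `HSemi32.pc_of_exists_geom` (helper32) applied to `HolGeom93.exists_geom` (helper93),

are plugged into `Hol13.qexp_of_slices`.  Together with `G4DS2.liftQ : LIFTQ` (helper2) this gives the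
unconditional `eigenOcc` of `Hol13/Iface`.
-/
import Mathlib
import Fermat.Agent.T1B.Hol13.Main
import Fermat.Agent.T1B.HForm79.PAFinal
import Fermat.Agent.T1B.HolGeom93.PB
import Fermat.Agent.T1B.HolGeom93.Exists
import Fermat.Agent.T1B.HSemi32.Main
import Fermat.Agent.T1B.G4DS2.LiftQ

set_option autoImplicit false

noncomputable section

namespace Fermat.Agent.T1B.Hol13

open HahnSeries ModularCurve AlgebraicCurve
open Fermat.Agent.X0 Fermat.Agent.ES.RED.Setup8
open Fermat.Agent.T1B.Top68 Fermat.Agent.T1B.Hecke7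

/-- **(P-C)**, unconditionally (helper32's `pc_of_exists_geom` + helper93's `exists_geom`). -/
theorem pc_final (N p : ℕ) [NeZero N] (hp : p.Prime) (h4 : 4 ∣ N) (hpN : ¬ p ∣ N)
    (A : ValuationSubring Kbar) (hA : A.LiesOverPrime p) : PC N A :=
  Fermat.Agent.T1B.HSemi32.pc_of_exists_geom
    (Fermat.Agent.T1B.HolGeom93.exists_geom A N hp h4 hpN hA)

/-- **`QEXP`**: a logarithmically holomorphic series `w` over the residue field of `A ⊂ ℚbar` over
`p ∤ N`, `4 ∣ N`, lies in the span of the reductions of `q`-expansions of integral weight `2` cusp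
forms on `Γ₀(N)`. -/
theorem qexp : QEXP :=
  qexp_of_slices (fun N _ => Fermat.Agent.T1B.HForm79.pa N)
    (fun N p _ hp h4 hpN A hA => Fermat.Agent.T1B.HolGeom93.pb N p hp h4 hpN A hA)
    (fun N p _ hp h4 hpN A hA => pc_final N p hp h4 hpN A hA)

/-- The brick-H output, unconditionally: a nonzero logarithmically holomorphic Hecke eigenseries
produces an eigenform occurrence. -/
theorem eigenOcc
    (N p : ℕ) [NeZero N] (hp : p.Prime) (h4 : 4 ∣ N) (hpN : ¬ p ∣ N)
    (A : ValuationSubring (AlgebraicClosure ℚ)) (hA : A.LiesOverPrime p)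
    [CharP (IsLocalRing.ResidueField ↥A) p]
    (good : ℕ → Prop) (a : ℕ → ℤ) (C : Set (Polynomial ℤ))
    (hgood : ∀ ℓ, good ℓ → ℓ.Prime ∧ ¬ ℓ ∣ N ∧ ℓ ≠ p)
    (w : LaurentSeries (IsLocalRing.ResidueField ↥A)) (hw0 : w ≠ 0)
    (hol : HolLog (IsLocalRing.ResidueField ↥A) N p w)
    (hT : ∀ (ℓ : ℕ) [NeZero ℓ], good ℓ →
      heckeT2 ℓ w = ((a ℓ : ℤ) : IsLocalRing.ResidueField ↥A) • w)
    (hU : ∀ c ∈ C, Polynomial.aeval (U2End (IsLocalRing.ResidueField ↥A)) c w = 0) :
    EigenOcc N p good a C :=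
  eigenOcc_of_holLog qexp Fermat.Agent.T1B.G4DS2.liftQ N p hp h4 hpN A hA good a C hgood w hw0 hol
    hT hU

end Fermat.Agent.T1B.Hol13
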