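/-
T1B / brick H (helper13): TRANSFER of `HolLog` and of the eigen-equations along an isomorphism of
the coefficient fields (OMEGA-GAUSS (Ω5), helper3's memo): for `σ : κ ≃+* κ'`,

  `HolLog κ' N p (coeffMap σ w) → HolLog κ N p w`,

and `coeffMap` commutes with `dlog`, `heckeT2 ℓ`, `Uop ℓ`, `serOf`, so that data over
`κ' = ` residue field of `ℚ̄_p` can be brought back to `κ = ` residue field of `A ⊂ ℚbar`.

Method: `p ∣ ord_v u ↔ u = ε · y^p` with `ε` a unit at `v` (`dvd_ord_iff`), a statement that is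
transported by the ring isomorphism `F~_κ ≃+* F~_κ'` induced by `coeffMap σ` and the induced
bijection on places (`Place.transport`).
-/
import Mathlib
import Fermat.Agent.T1B.Hol13.Iface
import Fermat.Agent.X0.FFPlace
import Fermat.Agent.X0.FFDict
import Fermat.Agent.X0.LaurentPlace
import Fermat.Agent.ES.RED.ResidueUnion1

set_option autoImplicit false
set_option linter.style.haveILetI false

noncomputable section

namespace Fermat.Agent.T1B.Hol13

open HahnSeries ModularCurve AlgebraicCurve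
open Fermat.Agent.X0 Fermat.Agent.T1B.Hecke7 Fermat.Agent.IG.PR.Theta20

/-! ### `p ∣ ord_v u` as a multiplicative statement -/

section DvdOrd

variable {K F : Type*} [Field K] [Field F] [Algebra K F]

/-- `p ∣ ord_v u` iff `u` is a unit at `v` times a `p`-th power. -/
theorem dvd_ord_iff (v : Place K F) (p : ℕ) {u : F} (hu : u ≠ 0) :
    (p : ℤ) ∣ v.ord u ↔ ∃ ε y : F, ε ∈ v.toValuationSubring ∧ ε⁻¹ ∈ v.toValuationSubring ∧
      u = ε * y ^ p := by
  constructor
  · rintro ⟨n, hn⟩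
    obtain ⟨π, hπ0, hπ⟩ := Fermat.Agent.X0.LaurentPlace.exists_ord_eq_one v
    have hy0 : π ^ n ≠ 0 := zpow_ne_zero _ hπ0
    have hyp0 : (π ^ n) ^ p ≠ 0 := pow_ne_zero _ hy0
    have hord : v.ord (u * ((π ^ n) ^ p)⁻¹) = 0 := by
      rw [v.ord_mul hu (inv_ne_zero hyp0), v.ord_inv, Fermat.Agent.X0.FF.ord_pow, v.ord_zpow, hπ,
        hn]
      ring
    refine ⟨u * ((π ^ n) ^ p)⁻¹, π ^ n, ?_, ?_, ?_⟩
    · exact (Fermat.Agent.X0.FF.ffp_mem_iff_ord_nonneg v).2 hord.ge
    · apply (Fermat.Agent.X0.FF.ffp_mem_iff_ord_nonneg v).2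
      rw [v.ord_inv, hord, neg_zero]
    · rw [mul_assoc, inv_mul_cancel₀ hyp0, mul_one]
  · rintro ⟨ε, y, hε, hε', rfl⟩
    have hε0 : ε ≠ 0 := left_ne_zero_of_mul hu
    have hy0 : y ^ p ≠ 0 := right_ne_zero_of_mul hu
    have h1 : 0 ≤ v.ord ε := (Fermat.Agent.X0.FF.ffp_mem_iff_ord_nonneg v).1 hε
    have h2 : 0 ≤ v.ord ε⁻¹ := (Fermat.Agent.X0.FF.ffp_mem_iff_ord_nonneg v).1 hε'
    rw [v.ord_inv] at h2
    rw [v.ord_mul hε0 hy0, Fermat.Agent.X0.FF.ord_pow]
    have : v.ord ε = 0 := by omega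
    rw [this, zero_add]
    exact dvd_mul_right _ _

end DvdOrd

/-! ### Transport of places along a semilinear isomorphism -/

section Transport

variable {K K' F F' : Type*} [Field K] [Field K'] [Field F] [Field F'] [Algebra K F]
  [Algebra K' F']

/-- Transport of a place along a ring isomorphism `Φ : F ≃+* F'` compatible with `σ : K ≃+* K'`. -/
def placeTransport (σ : K ≃+* K') (Φ : F ≃+* F')
    (h : ∀ c : K, Φ (algebraMap K F c) = algebraMap K' F' (σ c)) (v : Place K F) : Place K' F' where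
  toValuationSubring := v.toValuationSubring.comap (Φ.symm : F' →+* F)
  algebraMap_mem' c' := by
    rw [ValuationSubring.mem_comap]
    have h1 : (Φ.symm : F' →+* F) (algebraMap K' F' c') = algebraMap K F (σ.symm c') := by
      show Φ.symm (algebraMap K' F' c') = algebraMap K F (σ.symm c')
      rw [RingEquiv.symm_apply_eq, h, RingEquiv.apply_symm_apply]
    rw [h1]
    exact v.algebraMap_mem' _
  ne_top' := by
    intro htop
    apply v.ne_top'
    refine SetLike.ext fun x => ⟨fun _ => ValuationSubring.mem_top x, fun _ => ?_⟩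
    have h1 : Φ x ∈ v.toValuationSubring.comap (Φ.symm : F' →+* F) := by
      rw [htop]; exact ValuationSubring.mem_top _
    rw [ValuationSubring.mem_comap] at h1
    have h2 : (Φ.symm : F' →+* F) (Φ x) = x := Φ.symm_apply_apply x
    rwa [h2] at h1
  isPrincipalIdealRing' := by
    haveI := v.isPrincipalIdealRing'
    let e : ↥v.toValuationSubring →+* ↥(v.toValuationSubring.comap (Φ.symm : F' →+* F)) :=
      { toFun := fun x => ⟨Φ (x : F), by
          rw [ValuationSubring.mem_comap]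
          have h2 : (Φ.symm : F' →+* F) (Φ (x : F)) = x := Φ.symm_apply_apply _
          rw [h2]; exact x.2⟩
        map_one' := Subtype.ext (map_one Φ)
        map_mul' := fun x y => Subtype.ext (map_mul Φ _ _)
        map_zero' := Subtype.ext (map_zero Φ)
        map_add' := fun x y => Subtype.ext (map_add Φ _ _) }
    have hsurj : Function.Surjective e := by
      rintro ⟨y, hy⟩
      rw [ValuationSubring.mem_comap] at hy
      exact ⟨⟨(Φ.symm : F' →+* F) y, hy⟩, Subtype.ext (Φ.apply_symm_apply y)⟩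
    exact IsPrincipalIdealRing.of_surjective e hsurj

theorem mem_placeTransport_iff (σ : K ≃+* K') (Φ : F ≃+* F')
    (h : ∀ c : K, Φ (algebraMap K F c) = algebraMap K' F' (σ c)) (v : Place K F) (y : F') :
    y ∈ (placeTransport σ Φ h v).toValuationSubring ↔ Φ.symm y ∈ v.toValuationSubring :=
  Iff.rfl

/-- Divisibility of the order is transported back. -/
theorem dvd_ord_of_placeTransport (σ : K ≃+* K') (Φ : F ≃+* F')
    (h : ∀ c : K, Φ (algebraMap K F c) = algebraMap K' F' (σ c)) (v : Place K F) (p : ℕ) {u : F}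
    (hu : u ≠ 0) (hdvd : (p : ℤ) ∣ (placeTransport σ Φ h v).ord (Φ u)) : (p : ℤ) ∣ v.ord u := by
  have hu' : Φ u ≠ 0 := (map_ne_zero Φ).2 hu
  obtain ⟨ε, y, hε, hε', hεy⟩ := (dvd_ord_iff _ p hu').1 hdvd
  rw [mem_placeTransport_iff] at hε hε'
  refine (dvd_ord_iff v p hu).2 ⟨Φ.symm ε, Φ.symm y, hε, ?_, ?_⟩
  · rw [← map_inv₀]; exact hε'
  · rw [← map_pow, ← map_mul, ← hεy, RingEquiv.symm_apply_apply]

end Transport

/-! ### `coeffMap` and the Laurent series operators -/

section CoeffMapOps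

variable {κ κ' : Type*} [Field κ] [Field κ'] (φ : κ →+* κ')

theorem coeffMap_dlog (g : LaurentSeries κ) : coeffMap φ (dlog g) = dlog (coeffMap φ g) := by
  rw [dlog_def, dlog_def, map_mul, map_inv₀, coeffMap_theta]

theorem coeffMap_Uop (ℓ : ℕ) [NeZero ℓ] (g : LaurentSeries κ) :
    coeffMap φ (Uop ℓ g) = Uop ℓ (coeffMap φ g) := by
  ext n
  rw [coeffMap_coeff, Uop_coeff, Uop_coeff, coeffMap_coeff]

theorem coeffMap_smul' (c : κ) (g : LaurentSeries κ) :
    coeffMap φ (c • g) = φ c • coeffMap φ g := by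
  ext n
  rw [coeffMap_coeff, HahnSeries.coeff_smul, HahnSeries.coeff_smul, coeffMap_coeff, smul_eq_mul,
    smul_eq_mul, map_mul]

theorem coeffMap_heckeT2 (ℓ : ℕ) [NeZero ℓ] (g : LaurentSeries κ) :
    coeffMap φ (heckeT2 ℓ g) = heckeT2 ℓ (coeffMap φ g) := by
  rw [heckeT2, heckeT2, map_add, coeffMap_Uop, coeffMap_smul', map_natCast,
    Fermat.Agent.ES.RED.ResidueUnion1.coeffMap_qExpand']

theorem coeffMap_injective' : Function.Injective (coeffMap φ) := by
  intro x y hxy
  ext n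
  have := congrArg (fun z : LaurentSeries κ' => z.coeff n) hxy
  simp only [coeffMap_coeff] at this
  exact φ.injective this

end CoeffMapOps

/-! ### The isomorphism `F~_κ ≃+* F~_κ'` -/

section FullC

variable {κ κ' : Type*} [Field κ] [Field κ'] (σ : κ ≃+* κ') (N : ℕ) [NeZero N]

theorem coeffMap_symm_coeffMap (x : LaurentSeries κ) :
    coeffMap (σ.symm : κ' →+* κ) (coeffMap (σ : κ →+* κ') x) = x := by
  rw [coeffMap_coeffMap]
  have : (σ.symm : κ' →+* κ).comp (σ : κ →+* κ') = RingHom.id κ :=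
    RingHom.ext fun c => σ.symm_apply_apply c
  rw [this, coeffMap_id]

theorem coeffMap_coeffMap_symm (x : LaurentSeries κ') :
    coeffMap (σ : κ →+* κ') (coeffMap (σ.symm : κ' →+* κ) x) = x := by
  rw [coeffMap_coeffMap]
  have : (σ : κ →+* κ').comp (σ.symm : κ' →+* κ) = RingHom.id κ' :=
    RingHom.ext fun c => σ.apply_symm_apply c
  rw [this, coeffMap_id]

/-- The ring isomorphism `F~_κ ≃+* F~_κ'` induced by `σ` on coefficients. -/
def fullCEquiv : ↥(modularFunctionFieldFullC κ N) ≃+* ↥(modularFunctionFieldFullC κ' N) where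
  toFun x := ⟨coeffMap (σ : κ →+* κ') x,
    Fermat.Agent.ES.RED.ResidueUnion1.coeffMap_mem_fullC (σ : κ →+* κ') N x.2⟩
  invFun x := ⟨coeffMap (σ.symm : κ' →+* κ) x,
    Fermat.Agent.ES.RED.ResidueUnion1.coeffMap_mem_fullC (σ.symm : κ' →+* κ) N x.2⟩
  left_inv x := Subtype.ext (coeffMap_symm_coeffMap σ _)
  right_inv x := Subtype.ext (coeffMap_coeffMap_symm σ _)
  map_mul' x y := Subtype.ext (map_mul (coeffMap (σ : κ →+* κ')) _ _)
  map_add' x y := Subtype.ext (map_add (coeffMap (σ : κ →+* κ')) _ _)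

@[simp] theorem coe_fullCEquiv (x : ↥(modularFunctionFieldFullC κ N)) :
    ((fullCEquiv σ N x : ↥(modularFunctionFieldFullC κ' N)) : LaurentSeries κ') =
      coeffMap (σ : κ →+* κ') (x : LaurentSeries κ) := rfl

@[simp] theorem coe_fullCEquiv_symm (x : ↥(modularFunctionFieldFullC κ' N)) :
    (((fullCEquiv σ N).symm x : ↥(modularFunctionFieldFullC κ N)) : LaurentSeries κ) =
      coeffMap (σ.symm : κ' →+* κ) (x : LaurentSeries κ') := rfl

theorem fullCEquiv_algebraMap (c : κ) :
    fullCEquiv σ N (algebraMap κ ↥(modularFunctionFieldFullC κ N) c) =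
      algebraMap κ' ↥(modularFunctionFieldFullC κ' N) (σ c) :=
  Subtype.ext (Fermat.Agent.ES.RED.ResidueUnion1.coeffMap_algebraMap' (σ : κ →+* κ') c)

end FullC

/-! ### The transfer -/

/-- **(Ω5)**: `HolLog` descends along an isomorphism of the coefficient fields. -/
theorem holLog_of_coeffMap {κ κ' : Type*} [Field κ] [Field κ'] (σ : κ ≃+* κ') (N p : ℕ)
    [NeZero N] (w : LaurentSeries κ)
    (h : HolLog κ' N p (coeffMap (σ : κ →+* κ') w)) : HolLog κ N p w := by
  obtain ⟨u', hu', hw, hdiv⟩ := h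
  refine ⟨(fullCEquiv σ N).symm u', ?_, ?_, ?_⟩
  · exact (map_ne_zero (fullCEquiv σ N).symm).2 hu'
  · rw [coe_fullCEquiv_symm, ← coeffMap_dlog, ← hw, coeffMap_symm_coeffMap]
  · intro v
    have hu0 : (fullCEquiv σ N).symm u' ≠ 0 := (map_ne_zero (fullCEquiv σ N).symm).2 hu'
    apply dvd_ord_of_placeTransport σ (fullCEquiv σ N) (fullCEquiv_algebraMap σ N) v p hu0
    rw [RingEquiv.apply_symm_apply]
    exact hdiv _

/-- The converse direction (not needed for `LIFTC`, for completeness). -/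
theorem holLog_coeffMap {κ κ' : Type*} [Field κ] [Field κ'] (σ : κ ≃+* κ') (N p : ℕ)
    [NeZero N] (w : LaurentSeries κ) (h : HolLog κ N p w) :
    HolLog κ' N p (coeffMap (σ : κ →+* κ') w) := by
  apply holLog_of_coeffMap σ.symm N p
  have : coeffMap ((σ.symm : κ' ≃+* κ) : κ' →+* κ) (coeffMap (σ : κ →+* κ') w) = w :=
    coeffMap_symm_coeffMap σ w
  rw [this]
  exact h

end Fermat.Agent.T1B.Hol13
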